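import Fermat.Agent.S48.W1.Gam
import Fermat.Agent.S23.Conj

/-!
# S48 / W1b / task W1-ConjQuot : division of a form of weight four by `H` of weight three  (~200 lines, TWIN)

TWIN of the second half of the proof of `Fermat.Agent.S23.exists_conj` (`Fermat/Agent/S23/Conj.lean`, from `-- divide` to `obtain ⟨g, hg⟩ := conj_exists_cuspForm ..`), with `P' := P` (weight `3`, character `χ⁻¹` on `Γ₀(N)`), `Q'N.1 := Q` (weight `4` on `Γ₀(N)`), `k = 1`.
1. `S23.exists_mdiff_quotient n (P := P) (Q := Q) (a := a) P.holo' Q.holo' _ hP0 h` gives `F`, `MDiff F`, `P τ * F τ = Q τ`, `F τ ^ n + ∑ a i τ * F τ ^ i = 0` (`MDiff (a i)` from `ha`: `A.holo'`).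
2. for `γ ∈ Γ₀(N)`, `d = lr N γ`:  `P * (F ∣[1] γ - χ d • F) = 0`:  `Q (γ • τ) = denom γ τ ^ 4 * Q τ` (`SlashInvariantForm.slash_action_eqn_SL''`), `P (γ • τ) = χ⁻¹ d * denom γ τ ^ 3 * P τ` (from `hP γ hγ` evaluated at `τ`: `ModularForm.SL_slash_apply`), `χ⁻¹ d * χ d = 1`.
   Then `UpperHalfPlane.mul_eq_zero_iff P.holo' _` (identity theorem, as in S23) and `hP0`.
3. zero at the cusps: verbatim S23 (`S23.tendsto_zero_of_monic_root`, `S23.conj_levelOne_smul`) with `k = 1`.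
4. `exists_cuspForm N F` (invariance under `Γ₁(N)`: 2. with `lr N γ = 1`, `map_one`, `one_smul`; `mem_Gamma1_iff`).
-/

set_option autoImplicit false

open UpperHalfPlane ModularForm CongruenceSubgroup
open scoped MatrixGroups Manifold

namespace Fermat.Agent.S48.W1

theorem exists_quotient (N : ℕ) [NeZero N] (χ : DirichletCharacter ℂ N)
    (P : ModularForm (Gamma1 N) 3) (hP : HasChar N 3 χ⁻¹ P) (hP0 : (P : ℍ → ℂ) ≠ 0)
    (Q : CuspForm (Gamma0 N) 4) (n : ℕ) (hn : 0 < n) (a : ℕ → ℍ → ℂ)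
    (ha : ∀ i < n, ∃ A : CuspForm 𝒮ℒ (((n : ℤ) - i) * 1), ⇑A = a i)
    (h : ∀ τ, Q τ ^ n + ∑ i ∈ Finset.range n, a i τ * Q τ ^ i * P τ ^ (n - i) = 0) :
    ∃ g' : Sk N 1, HasChar N 1 χ g' ∧ ∀ τ, P τ * g' τ = Q τ := by
  obtain ⟨F, hF, hPF, hFeq⟩ := S23.exists_mdiff_quotient n (P := P) (Q := Q)
    (a := a) P.holo' Q.holo' (fun i hi => by
      obtain ⟨A, hA⟩ := ha i hi
      rw [← hA]
      exact A.holo') hP0 h
  -- transformation under `Γ₀(N)`
  have hchar : HasChar N 1 χ F := by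
    intro γ hγ
    have hu : IsUnit (lr N γ) := isUnit_lr hγ
    have hχ : χ⁻¹ (lr N γ) * χ (lr N γ) = 1 := by
      rw [MulChar.inv_apply_eq_inv', inv_mul_cancel₀ (hu.map χ).ne_zero]
    have hmul : (P : ℍ → ℂ) * (F ∣[(1 : ℤ)] γ - χ (lr N γ) • F) = 0 := by
      funext τ
      have hd : denom γ τ ≠ 0 := denom_ne_zero _ _
      have hQ : Q (γ • τ) = denom γ τ ^ (4 : ℤ) * Q τ :=
        SlashInvariantForm.slash_action_eqn_SL'' Q hγ τ
      have hPs : P (γ • τ) = χ⁻¹ (lr N γ) * denom γ τ ^ (3 : ℤ) * P τ := by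
        have h1 := congrFun (hP γ hγ) τ
        rw [SL_slash_apply, Pi.smul_apply, smul_eq_mul, zpow_neg] at h1
        have h3 : denom γ τ ^ (3 : ℤ) ≠ 0 := zpow_ne_zero _ hd
        rw [mul_inv_eq_iff_eq_mul₀ h3] at h1
        rw [h1]; ring
      have h1 := hPF (γ • τ)
      rw [hQ, ← hPF τ, hPs] at h1
      have e4 : denom γ τ ^ (4 : ℤ) = denom γ τ ^ (3 : ℤ) * denom γ τ := by
        rw [show (4 : ℤ) = 3 + 1 by norm_num, zpow_add₀ hd, zpow_one]
      rw [e4] at h1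
      have h2 : P τ * F (γ • τ) = P τ * (χ (lr N γ) * denom γ τ * F τ) := by
        have h3 : denom γ τ ^ (3 : ℤ) ≠ 0 := zpow_ne_zero _ hd
        apply mul_left_cancel₀ h3
        linear_combination (χ (lr N γ)) * h1 - (denom γ τ ^ (3 : ℤ) * P τ * F (γ • τ)) * hχ
      simp only [Pi.mul_apply, Pi.sub_apply, Pi.zero_apply, SL_slash_apply, Pi.smul_apply,
        smul_eq_mul]
      rw [mul_sub, ← mul_assoc, h2, zpow_neg, zpow_one]
      field_simp
      ring
    rcases (UpperHalfPlane.mul_eq_zero_iff P.holo'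
      ((hF.slash 1 _).sub (hF.const_smul _))).mp hmul with h | h
    · exact absurd h hP0
    · exact sub_eq_zero.mp h
  have hinv : ∀ γ ∈ Gamma1 N, F ∣[(1 : ℤ)] γ = F := by
    intro γ hγ
    obtain ⟨h0, h1⟩ := mem_Gamma1_iff.1 hγ
    rw [hchar γ h0, h1, map_one, one_smul]
  -- vanishing at the cusps
  have hzero : ∀ γ : SL(2, ℤ), IsZeroAtImInfty (F ∣[(1 : ℤ)] γ) := by
    intro γ
    refine S23.tendsto_zero_of_monic_root n hn (a := a) ?_ ?_
    · intro i hi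
      obtain ⟨A', hA'⟩ := ha i hi
      rw [← hA']
      exact CuspFormClass.zero_at_infty A'
    · intro τ
      have hd : denom γ τ ≠ 0 := denom_ne_zero _ _
      have h0 := hFeq (γ • τ)
      have h1 : ∑ i ∈ Finset.range n, a i (γ • τ) * F (γ • τ) ^ i =
          ∑ i ∈ Finset.range n, denom γ τ ^ ((n : ℤ) * 1) *
            (a i τ * ((F ∣[(1 : ℤ)] γ) τ) ^ i) := by
        refine Finset.sum_congr rfl fun i hi => ?_
        obtain ⟨A', hA'⟩ := ha i (Finset.mem_range.mp hi)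
        rw [← hA', S23.conj_levelOne_smul A' γ τ, SL_slash_apply, mul_pow, ← zpow_natCast,
          ← zpow_natCast (denom γ τ ^ (-(1 : ℤ))), ← zpow_mul]
        have : denom γ τ ^ ((n : ℤ) * 1) = denom γ τ ^ (((n : ℤ) - i) * 1) *
            denom γ τ ^ ((i : ℤ) * 1) := by
          rw [← zpow_add₀ hd]; congr 1; ring
        rw [this]
        have h2 : denom γ τ ^ ((i : ℤ) * 1) * denom γ τ ^ (-(1 : ℤ) * (i : ℤ)) = 1 := by
          rw [← zpow_add₀ hd]
          have : (i : ℤ) * 1 + -(1 : ℤ) * (i : ℤ) = 0 := by ring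
          rw [this, zpow_zero]
        linear_combination (-(denom γ τ ^ (((n : ℤ) - i) * 1) * A' τ * F (γ • τ) ^ (i : ℤ))) * h2
      have h3 : F (γ • τ) ^ n = denom γ τ ^ ((n : ℤ) * 1) * ((F ∣[(1 : ℤ)] γ) τ) ^ n := by
        rw [SL_slash_apply, mul_pow, ← zpow_natCast (denom γ τ ^ (-(1 : ℤ))), ← zpow_mul]
        have h2 : denom γ τ ^ ((n : ℤ) * 1) * denom γ τ ^ (-(1 : ℤ) * (n : ℤ)) = 1 := by
          rw [← zpow_add₀ hd]
          have : (n : ℤ) * 1 + -(1 : ℤ) * (n : ℤ) = 0 := by ring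
          rw [this, zpow_zero]
        linear_combination (-(F (γ • τ) ^ n)) * h2
      rw [h1, h3, ← Finset.mul_sum, ← mul_add] at h0
      exact (mul_eq_zero.mp h0).resolve_left (zpow_ne_zero _ hd)
  obtain ⟨g, hg⟩ := exists_cuspForm N F hF hinv hzero
  refine ⟨g, ?_, ?_⟩
  · rw [hg]; exact hchar
  · intro τ
    rw [hg]; exact hPF τ

end Fermat.Agent.S48.W1
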