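import Fermat.Agent.S48.W1.Conj.Mul
import Fermat.Agent.S48.W1.Conj.Quot
import Fermat.Agent.S48.W1.Eis.Main
import Fermat.Agent.S48.W1.Eis.Ser
import Fermat.Agent.S48.W1.Dia

/-!
# S48 / W1b / task W1-ConjChar : conjugation `S₁(N, χ) → S₁(N, σ ∘ χ)`  (~200 lines, TWIN)

TWIN of the first half of the proof of `Fermat.Agent.S23.exists_conj` (`Fermat/Agent/S23/Conj.lean`, up to `E3`) and of its last 15 lines.
0. If `χ (-1) ≠ -1` then `g = 0` (`eq_zero_of_hasChar odd_one`): take `g' = 0` (`HasChar` of `0`: `SlashAction.zero_slash`, `smul_zero`; `qExpansion_zero`, `map_zero`).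
1. Otherwise `ψ = χ⁻¹` is odd (`MulChar.inv_apply_eq_inv'`/`MulChar.inv_apply`: `χ⁻¹ (-1) = (χ (-1))⁻¹ = -1`), `χ' = χ.ringHomComp σ`, `ψ' = χ'⁻¹` is odd (`χ' (-1) = σ (-1) = -1`), and `ψ.ringHomComp σ = ψ'` (`MulChar.ext`; on units `σ (x⁻¹) = (σ x)⁻¹`: `map_inv₀`).
   `exists_eis N ψ` gives `H`, `exists_eis N ψ'` gives `H'`; `qExpansion 1 H' = eisSer ψ' = map σ (eisSer ψ) = map σ (qExpansion 1 H)` (`map_eisSer`).
2. `exists_mul_eis` gives `F = H g ∈ S₄(Γ₀(N))`; `S23.exists_conj N (by decide : Even (4:ℤ)) σ F` gives `F'`.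
3. `exists_integral_equation1 N g` gives `n, a`; conjugate the level one coefficients by `S23.levelOne_conj σ` as in S23 (the block `hAN`, with `toCuspForm`): `a'`.
4. In `S23.niceSub` (`S23.qHom`, `S23.qHom_injective`, `S23.isNice_of_modularFormClass`; periods: `one_mem_strictPeriods N`, `CongruenceSubgroup.one_mem_strictPeriods_Gamma0 N`, `one_mem_strictPeriods_SL`):
   `E1 : HN * gN = FN`, `E2 : gN^n + ∑ aN i * gN^i = 0`; apply `PowerSeries.map σ ∘ qHom`: with `φ = map σ (qExpansion 1 g)`: `qHom H'N * φ = qHom F'N`, `φ^n + ∑ qHom (a'N i) φ^i = 0`; `S23.conj_homogenize` and `qHom_injective`: `F'^n + ∑ a' i F'^i H'^(n-i) = 0` as functions.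
5. `exists_quotient N χ' H' _ _ F' n hn a' _ _` gives `g'` with `H' g' = F'`; `H' ≠ 0` because `eisSer ψ' ≠ 0` (`eisSer_ne_zero`, `qExpansion_zero`).
6. `qHom H'N * qHom g'N = qHom F'N = qHom H'N * φ`, cancel (`mul_left_cancel₀`, `PowerSeries ℂ` is a domain).
-/

set_option autoImplicit false

open UpperHalfPlane ModularForm CongruenceSubgroup
open scoped MatrixGroups Manifold

namespace Fermat.Agent.S48.W1

theorem exists_conj_char (N : ℕ) [NeZero N] (σ : ℂ →+* ℂ) (χ : DirichletCharacter ℂ N) (g : Sk N 1)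
    (hg : HasChar N 1 χ g) :
    ∃ g' : Sk N 1, HasChar N 1 (χ.ringHomComp σ) g' ∧
      qExpansion 1 g' = PowerSeries.map σ (qExpansion 1 g) := by
  by_cases hodd : χ (-1) = -1
  swap
  · have h0 : g = 0 := eq_zero_of_hasChar odd_one χ hodd g hg
    refine ⟨0, ?_, ?_⟩
    · intro γ _
      rw [FunLike.coe_zero, SlashAction.zero_slash, smul_zero]
    · rw [h0, FunLike.coe_zero, qExpansion_zero, map_zero]
  have h1Γ := CongruenceSubgroup.one_mem_strictPeriods_Gamma0 N
  have h1G := one_mem_strictPeriods N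
  have h1S := one_mem_strictPeriods_SL
  set ψ : DirichletCharacter ℂ N := χ⁻¹ with hψ
  set χ' : DirichletCharacter ℂ N := χ.ringHomComp σ with hχ'
  set ψ' : DirichletCharacter ℂ N := χ'⁻¹ with hψ'
  have hψodd : ψ (-1) = -1 := by
    rw [hψ, MulChar.inv_apply_eq_inv', hodd]
    norm_num
  have hχ'odd : χ' (-1) = -1 := by
    rw [hχ', MulChar.ringHomComp_apply, hodd, map_neg, map_one]
  have hψ'odd : ψ' (-1) = -1 := by
    rw [hψ', MulChar.inv_apply_eq_inv', hχ'odd]
    norm_num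
  have hψσ : ψ.ringHomComp σ = ψ' := by
    ext x
    rw [MulChar.ringHomComp_apply, hψ, hψ', MulChar.inv_apply_eq_inv', MulChar.inv_apply_eq_inv',
      hχ', MulChar.ringHomComp_apply, map_inv₀]
  obtain ⟨H, hHc, hHq⟩ := exists_eis N ψ hψodd
  obtain ⟨H', hH'c, hH'q⟩ := exists_eis N ψ' hψ'odd
  have hHH' : qExpansion 1 H' = PowerSeries.map σ (qExpansion 1 H) := by
    rw [hH'q, hHq, map_eisSer, hψσ]
  obtain ⟨F, hF⟩ := exists_mul_eis N χ g hg H hHc
  obtain ⟨F', hF'⟩ := S23.exists_conj N (by decide : Even (4 : ℤ)) σ F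
  obtain ⟨n₁, a, hn₁, hA, hint⟩ := exists_integral_equation1 N g
  have hAN : ∀ i, ∃ (x x' : S23.niceSub), i < n₁ → (x.1 = a i ∧
      S23.qHom x' = PowerSeries.map σ (S23.qHom x) ∧
      ∃ A' : CuspForm 𝒮ℒ (((n₁ : ℤ) - i) * 1), ⇑A' = x'.1) := by
    intro i
    by_cases hi : i < n₁
    · obtain ⟨A, hAi⟩ := hA i hi
      obtain ⟨B, hB⟩ := S23.levelOne_conj σ (ModularFormClass.modularForm A)
      have hB0 : (qExpansion 1 B).coeff 0 = 0 := by
        rw [hB, PowerSeries.coeff_map]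
        have : (qExpansion 1 (ModularFormClass.modularForm A)).coeff 0 = 0 :=
          CuspFormClass.qExpansion_coeff_zero A one_pos h1S
        rw [this, map_zero]
      refine ⟨⟨A, S23.isNice_of_modularFormClass h1S A⟩, ⟨B, S23.isNice_of_modularFormClass h1S B⟩,
        fun _ => ⟨hAi, hB, toCuspForm B hB0, rfl⟩⟩
    · exact ⟨0, 0, fun h => absurd h hi⟩
  choose aN a'N haN using hAN
  let gN : S23.niceSub := ⟨g, S23.isNice_of_modularFormClass h1G g⟩
  let HN : S23.niceSub := ⟨H, S23.isNice_of_modularFormClass h1G H⟩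
  let H'N : S23.niceSub := ⟨H', S23.isNice_of_modularFormClass h1G H'⟩
  let FN : S23.niceSub := ⟨F, S23.isNice_of_modularFormClass h1Γ F⟩
  let F'N : S23.niceSub := ⟨F', S23.isNice_of_modularFormClass h1Γ F'⟩
  set φ : PowerSeries ℂ := PowerSeries.map σ (qExpansion 1 g) with hφ
  have E1 : HN * gN = FN := by
    apply Subtype.ext
    funext τ
    exact (hF τ).symm
  have E2 : gN ^ n₁ + ∑ i ∈ Finset.range n₁, aN i * gN ^ i = 0 := by
    apply Subtype.ext
    funext τ
    have h0 := hint τ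
    have h1 : ∑ i ∈ Finset.range n₁, a i τ * g τ ^ i
        = ∑ i ∈ Finset.range n₁, (aN i).1 τ * g τ ^ i :=
      Finset.sum_congr rfl fun i hi => by rw [(haN i (Finset.mem_range.mp hi)).1]
    rw [h1] at h0
    simpa [gN] using h0
  have E1' : S23.qHom H'N * φ = S23.qHom F'N := by
    have h := congrArg (fun x => PowerSeries.map σ (S23.qHom x)) E1
    simp only [map_mul] at h
    have h1 : PowerSeries.map σ (S23.qHom HN) = S23.qHom H'N := hHH'.symm
    have h2 : PowerSeries.map σ (S23.qHom FN) = S23.qHom F'N := hF'.symm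
    rw [h1, h2] at h
    exact h
  have E2' : φ ^ n₁ + ∑ i ∈ Finset.range n₁, S23.qHom (a'N i) * φ ^ i = 0 := by
    have h := congrArg (fun x => PowerSeries.map σ (S23.qHom x)) E2
    simp only [map_mul, map_sum, map_pow, map_add, map_zero] at h
    rw [← h]
    congr 1
    exact Finset.sum_congr rfl fun i hi => by rw [(haN i (Finset.mem_range.mp hi)).2.1]; rfl
  have E3 : F'N ^ n₁ + ∑ i ∈ Finset.range n₁, a'N i * F'N ^ i * H'N ^ (n₁ - i) = 0 := by
    apply S23.qHom_injective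
    simp only [map_mul, map_sum, map_pow, map_add, map_zero]
    exact S23.conj_homogenize n₁ _ φ _ _ E1' E2'
  have hH'0 : (H' : ℍ → ℂ) ≠ 0 := by
    intro h
    have h1 : qExpansion 1 H' = 0 := by rw [h]; exact qExpansion_zero 1
    rw [hH'q] at h1
    exact eisSer_ne_zero ψ' h1
  obtain ⟨g', hg'c, hg'⟩ := exists_quotient N χ' H' hH'c hH'0 F' n₁ hn₁ (fun i => (a'N i).1)
    (fun i hi => (haN i hi).2.2) (by
      intro τ
      have := congrFun (congrArg Subtype.val E3) τ
      simpa [H'N, F'N] using this)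
  refine ⟨g', hg'c, ?_⟩
  let g'N : S23.niceSub := ⟨g', S23.isNice_of_modularFormClass h1G g'⟩
  have hPg : H'N * g'N = F'N := by
    apply Subtype.ext
    funext τ
    exact hg' τ
  have h4 : S23.qHom H'N * S23.qHom g'N = S23.qHom H'N * φ := by
    rw [← map_mul, hPg, E1']
  have h5 : S23.qHom H'N ≠ 0 := by
    intro h
    apply hH'0
    have := S23.qHom_injective (h.trans (map_zero S23.qHom).symm)
    exact congrArg Subtype.val this
  exact mul_left_cancel₀ h5 h4

end Fermat.Agent.S48.W1
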