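import Fermat.Agent.S48.W1.Conj.Char
import Fermat.Agent.S48.W1.Coeff

/-!
# S48 / W1b / task W1-ConjFull : conjugation on all of `S₁(Γ₁(N))`, commuting with the diamond operators  (~100 lines)

`g = ∑ χ, comp χ g` (`sum_comp`).  For each `χ` choose (`exists_conj_char N σ χ (comp χ g) (hasChar_comp χ g)`) `G χ : Sk N 1` with character `χ.ringHomComp σ` and conjugate expansion.  `g' = ∑ χ, G χ`.
`dia d g' = ∑ χ, σ (χ d) • G χ` (`map_sum`, `(hasChar_iff _ _).1`, `MulChar.ringHomComp_apply`), so (`qcL N 1` is linear: `map_sum`, `map_smul`; `qcL_apply`; `ModularFormClass.qCoeff F n = (qExpansion 1 F).coeff n` by definition, `PowerSeries.coeff_map`)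
`a_n(dia d g') = ∑ χ, σ (χ d) σ (a_n(comp χ g)) = σ (∑ χ, χ d a_n (comp χ g)) = σ (a_n (dia d g))` (`dia_eq_sum`).
-/

set_option autoImplicit false

open UpperHalfPlane ModularForm CongruenceSubgroup
open scoped MatrixGroups Manifold

namespace Fermat.Agent.S48.W1

theorem exists_conj (N : ℕ) [NeZero N] (σ : ℂ →+* ℂ) (g : Sk N 1) :
    ∃ g' : Sk N 1, ∀ (d : (ZMod N)ˣ) (n : ℕ),
      ModularFormClass.qCoeff (dia N 1 d g') n = σ (ModularFormClass.qCoeff (dia N 1 d g) n) := by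
  classical
  choose G hG1 hG2 using fun χ : DirichletCharacter ℂ N =>
    exists_conj_char N σ χ (comp χ g) (hasChar_comp χ g)
  refine ⟨∑ χ, G χ, fun d n => ?_⟩
  have h1 : dia N 1 d (∑ χ, G χ) = ∑ χ : DirichletCharacter ℂ N, σ (χ (d : ZMod N)) • G χ := by
    rw [map_sum]
    refine Finset.sum_congr rfl fun χ _ => ?_
    rw [(hasChar_iff _ _).1 (hG1 χ) d, MulChar.ringHomComp_apply]
  have h2 : ∀ χ : DirichletCharacter ℂ N, qcL N 1 (G χ) n = σ (qcL N 1 (comp χ g) n) := by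
    intro χ
    rw [qcL_apply, qcL_apply]
    show (qExpansion 1 (G χ)).coeff n = σ ((qExpansion 1 (comp χ g)).coeff n)
    rw [hG2 χ, PowerSeries.coeff_map]
  rw [← qcL_apply, ← qcL_apply, h1, dia_eq_sum d g, map_sum, map_sum, Finset.sum_apply,
    Finset.sum_apply, map_sum]
  refine Finset.sum_congr rfl fun χ _ => ?_
  rw [map_smul, map_smul, Pi.smul_apply, Pi.smul_apply, smul_eq_mul, smul_eq_mul, map_mul, h2 χ]

end Fermat.Agent.S48.W1
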