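import Fermat.Agent.S48.W1.Gam
import Fermat.Agent.S23.Conj

/-!
# S48 / W1b / task W1-ConjMul : `g ∈ S₁(N, χ)`, `H ∈ M₃(N, χ⁻¹)`  ⟹  `H g ∈ S₄(Γ₀(N))`;  integral equation over level one  (~120 lines)

* `exists_mul_eis`: `S23.conj_exists_cuspForm N (F := ⇑H * ⇑g)`.  `MDiff`: `H.holo'.mul g.holo'`.  `ModularForm.mul_slash_SL2 : (f * g) ∣[k1 + k2] A = f ∣[k1] A * g ∣[k2] A` (weights `3 + 1 = 4`; `show (4:ℤ) = 3 + 1`).
  Invariance: `(χ⁻¹ d • H) * (χ d • g) = H * g` since `χ⁻¹ d * χ d = 1` for the unit `d = lr N γ` (`isUnit_lr`, `MulChar.inv_apply_eq_inv`/`MulChar.inv_apply'`, `IsUnit.map`, `inv_mul_cancel₀`).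
  Cusps: `(H ∣[3] γ)` is bounded at `i∞` (`ModularFormClass.bdd_at_infty_slash` / `OnePoint.isBoundedAt_iff_forall_SL2Z`), `(g ∣[1] γ)` is zero at `i∞` (`zero_at`): `Filter.BoundedAtFilter.mul_zeroAtFilter`-type lemma (`IsBoundedAtImInfty`, `IsZeroAtImInfty` unfold to `Filter.BoundedAtFilter`, `Filter.ZeroAtFilter`; `Filter.ZeroAtFilter.boundedAtFilter`, `Asymptotics.IsBigO.mul_isLittleO`, or `Filter.Tendsto.zero_mul_isBoundedUnder_le`).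
* `exists_integral_equation1`: `S23.integral_general` (`S23/Integrality.lean`) with `𝒢 = Γ₁(N)`, `ℋ = 𝒮ℒ`, exactly as `S23.exists_integral_equation` does for `Γ₀(N)` (copy its 5 line proof).
-/

set_option autoImplicit false

open UpperHalfPlane ModularForm CongruenceSubgroup
open scoped MatrixGroups Manifold

namespace Fermat.Agent.S48.W1

theorem exists_mul_eis (N : ℕ) [NeZero N] (χ : DirichletCharacter ℂ N) (g : Sk N 1)
    (hg : HasChar N 1 χ g) (H : ModularForm (Gamma1 N) 3) (hH : HasChar N 3 χ⁻¹ H) :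
    ∃ F : CuspForm (Gamma0 N) 4, ∀ τ, F τ = H τ * g τ := by
  have hsl : ∀ γ : SL(2, ℤ), ((⇑H * ⇑g : ℍ → ℂ) ∣[(4 : ℤ)] γ) = (⇑H ∣[(3 : ℤ)] γ) * (⇑g ∣[(1 : ℤ)] γ) := by
    intro γ
    have := ModularForm.mul_slash_SL2 3 1 γ (⇑H) (⇑g)
    simpa using this
  have hinv : ∀ γ ∈ Gamma0 N, ((⇑H * ⇑g : ℍ → ℂ) ∣[(4 : ℤ)] γ) = ⇑H * ⇑g := by
    intro γ hγ
    rw [hsl, hg γ hγ, hH γ hγ]
    have hu : IsUnit (lr N γ) := isUnit_lr hγ
    have h1 : χ⁻¹ (lr N γ) * χ (lr N γ) = 1 := by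
      rw [MulChar.inv_apply_eq_inv]
      exact Ring.inverse_mul_cancel _ (hu.map χ)
    funext τ
    simp only [Pi.mul_apply, Pi.smul_apply, smul_eq_mul]
    calc χ⁻¹ (lr N γ) * H τ * (χ (lr N γ) * g τ) = (χ⁻¹ (lr N γ) * χ (lr N γ)) * (H τ * g τ) := by ring
      _ = H τ * g τ := by rw [h1, one_mul]
  have hzero : ∀ γ : SL(2, ℤ), IsZeroAtImInfty ((⇑H * ⇑g : ℍ → ℂ) ∣[(4 : ℤ)] γ) := by
    intro γ
    rw [hsl]
    have hb : IsBoundedAtImInfty (⇑H ∣[(3 : ℤ)] γ) := ModularFormClass.bdd_at_infty_slash H γ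
    have hz : IsZeroAtImInfty (⇑g ∣[(1 : ℤ)] γ) := zero_at g γ
    exact Filter.BoundedAtFilter.mul_zeroAtFilter hb hz
  obtain ⟨F, hF⟩ := S23.conj_exists_cuspForm N (k := 4) (⇑H * ⇑g) (H.holo'.mul g.holo') hinv hzero
  exact ⟨F, fun τ => by rw [hF, Pi.mul_apply]⟩

theorem exists_integral_equation1 (N : ℕ) [NeZero N] {k : ℤ} (f : Sk N k) :
    ∃ (n : ℕ) (a : ℕ → ℍ → ℂ), 0 < n ∧
      (∀ i < n, ∃ A : CuspForm 𝒮ℒ (((n : ℤ) - i) * k), ⇑A = a i) ∧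
      ∀ τ, f τ ^ n + ∑ i ∈ Finset.range n, a i τ * f τ ^ i = 0 :=
  S23.integral_general f

end Fermat.Agent.S48.W1
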